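import Fermat.Agent.S35.G.Spec
import Fermat.Agent.S35.H891.Spec
import Fermat.Agent.S29.H812.HeckeInputs

/-!
# S35 — bridge between the two cubic interfaces (helper909)

`qNewFrob_of_newPartFrobExplicit : G.NewPartFrobExplicit → H891.QNewFrobStatement`

* `G.NewPartFrobExplicit` (helper450, `S35/G/Spec.lean`) is what the assembly
  `G.newPartFrobExplicit_of_parts` produces from the leaves of piece (G');
* `H891.QNewFrobStatement` (helper891, `S35/H891/Spec.lean`) is what the top glue of helper991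
  consumes.

Both say `(s² - 1)² (s² - q²) x = 0` for `q`-new `x ∈ J₀(M q)[m]`; the first with
`degA x = degB x = 0` (`pic0PushTotal`), the second with `IsQNew` (push-forwards principal) and the
cubic written out.  Also: `pushInputs_heckeAlphaBar`, `pushInputs_heckeBetaBar` (the first two
clauses of `G.DegStatement`, unconditionally, from `S29/H812`), and the converse translation
`isQNew_of_deg` / `newPartFrobAt_of_qNew`.
-/

set_option autoImplicit false

noncomputable section

namespace Fermat.Agent.S35.H909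

open AlgebraicCurve ModularCurve

/-- The inputs of `pic0Push` for `α`. -/
theorem pushInputs_heckeAlphaBar (M q : ℕ) [NeZero M] [NeZero q] :
    G.PushInputs (heckeAlphaBar G.Qb M q) := by
  haveI : NeZero (M * q) := ⟨Nat.mul_ne_zero (NeZero.ne M) (NeZero.ne q)⟩
  haveI hPD : HasPrincipalDivisors G.Qb (modularFunctionFieldBar (M * q)) :=
    Fermat.Agent.Lib.RR.H864.hasPrincipalDivisors_modularFunctionFieldBar (M * q)
  have hF := Fermat.Agent.S29.H812.exists_coord_modular M
  have hfin := Fermat.Agent.S29.H812.finiteAlong_heckeAlphaBar M q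
  exact ⟨Fermat.Agent.S29.H812.isIntegral_of_finiteAlong hfin, hfin,
    Fermat.Agent.S29.H812.normFormulaAlong hF (heckeAlphaBar G.Qb M q) hfin⟩

/-- The inputs of `pic0Push` for `β`. -/
theorem pushInputs_heckeBetaBar (M q : ℕ) [NeZero M] [NeZero q] :
    G.PushInputs (heckeBetaBar G.Qb M q) := by
  haveI : NeZero (M * q) := ⟨Nat.mul_ne_zero (NeZero.ne M) (NeZero.ne q)⟩
  haveI hPD : HasPrincipalDivisors G.Qb (modularFunctionFieldBar (M * q)) :=
    Fermat.Agent.Lib.RR.H864.hasPrincipalDivisors_modularFunctionFieldBar (M * q)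
  have hF := Fermat.Agent.S29.H812.exists_coord_modular M
  have hfin := Fermat.Agent.S29.H812.finiteAlong_heckeBetaBar M q
  exact ⟨Fermat.Agent.S29.H812.isIntegral_of_finiteAlong hfin, hfin,
    Fermat.Agent.S29.H812.normFormulaAlong hF (heckeBetaBar G.Qb M q) hfin⟩

section Push

variable {K F F' : Type*} [Field K] [Field F] [Field F'] [Algebra K F] [Algebra K F']

/-- `pic0PushTotal φ [D] = 0` iff `φ_* D` is principal. -/
theorem pic0PushTotal_mk_eq_zero_iff (φ : F →ₐ[K] F') (hφ : φ.toRingHom.IsIntegral)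
    (hfin : FiniteAlong K φ) (hN : NormFormulaAlong K φ hfin)
    (D : Divisor.degZero (K := K) (F := F')) :
    G.pic0PushTotal φ (Pic0.mk D) = 0 ↔
      (Divisor.pushforwardAlong φ hφ (D : Divisor K F')).IsPrincipal := by
  rw [G.pic0PushTotal_eq φ hφ hfin hN, G.pic0Push_mk]
  constructor
  · intro h
    have h1 := (QuotientAddGroup.eq_zero_iff (G.degZeroPush φ hφ D)).1 h
    rw [AddSubgroup.mem_addSubgroupOf] at h1
    exact h1
  · intro h
    refine (QuotientAddGroup.eq_zero_iff (G.degZeroPush φ hφ D)).2 ?_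
    rw [AddSubgroup.mem_addSubgroupOf]
    exact h

end Push

/-- The cubic, written out, from `frobPolyAdd`. -/
theorem cubic_of_frobPolyAdd {X : Type*} [AddCommGroup X]
    [DistribMulAction (G.Qb ≃ₐ[ℚ] G.Qb) X] (s : G.Qb ≃ₐ[ℚ] G.Qb) (Q : ℕ) (x : X)
    (h : G.frobPolyAdd (s * s) Q x = 0) :
    s • s • s • s • s • s • x + (1 + 2 * Q) • (s • s • x) =
      (2 + Q) • (s • s • s • s • x) + Q • x := by
  unfold G.frobPolyAdd at h
  simp only [mul_smul, smul_sub] at h
  have e1 : (1 + 2 * Q) • (s • s • x) = s • s • x + Q • (s • s • x) + Q • (s • s • x) := by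
    rw [add_smul, one_smul, two_mul, add_smul, add_assoc]
  have e2 : (2 + Q) • (s • s • s • s • x) =
      s • s • s • s • x + s • s • s • s • x + Q • (s • s • s • s • x) := by
    rw [add_smul, two_smul]
  rw [e1, e2]
  rw [sub_eq_zero] at h
  have h' := h
  -- `h : A - B - (B - C) = Q•B - Q•C - (Q•C - Q•x)`
  have key : ∀ A B C QB QC Qx : X, A - B - (B - C) = QB - QC - (QC - Qx) →
      A + (C + QC + QC) = B + B + QB + Qx := by
    intro A B C QB QC Qx hh
    have h2 : A = QB - QC - (QC - Qx) + (B - C) + B := by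
      rw [← hh]; abel
    rw [h2]; abel
  exact key _ _ _ _ _ _ h'

/-- The converse rewriting. -/
theorem frobPolyAdd_of_cubic {X : Type*} [AddCommGroup X]
    [DistribMulAction (G.Qb ≃ₐ[ℚ] G.Qb) X] (s : G.Qb ≃ₐ[ℚ] G.Qb) (Q : ℕ) (x : X)
    (h : s • s • s • s • s • s • x + (1 + 2 * Q) • (s • s • x) =
      (2 + Q) • (s • s • s • s • x) + Q • x) :
    G.frobPolyAdd (s * s) Q x = 0 := by
  unfold G.frobPolyAdd
  simp only [mul_smul, smul_sub]
  have e1 : (1 + 2 * Q) • (s • s • x) = s • s • x + Q • (s • s • x) + Q • (s • s • x) := by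
    rw [add_smul, one_smul, two_mul, add_smul, add_assoc]
  have e2 : (2 + Q) • (s • s • s • s • x) =
      s • s • s • s • x + s • s • s • s • x + Q • (s • s • s • s • x) := by
    rw [add_smul, two_smul]
  rw [e1, e2] at h
  have key : ∀ A B C QB QC Qx : X, A + (C + QC + QC) = B + B + QB + Qx →
      A - B - (B - C) - (QB - QC - (QC - Qx)) = 0 := by
    intro A B C QB QC Qx hh
    have h2 : A = B + B + QB + Qx - (C + QC + QC) := by
      rw [← hh]; abel
    rw [h2]; abel
  exact key _ _ _ _ _ _ h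

/-- `IsQNew x` gives `degA x = 0` and `degB x = 0`. -/
theorem deg_eq_zero_of_isQNew (M q : ℕ) [NeZero M] [NeZero q] (x : JZero (M * q))
    (hx : H891.IsQNew M q x) : G.degA M q x = 0 ∧ G.degB M q x = 0 := by
  obtain ⟨hα, hβ, D, rfl, hA, hB⟩ := hx
  obtain ⟨_, hfinα, hNα⟩ := pushInputs_heckeAlphaBar M q
  obtain ⟨_, hfinβ, hNβ⟩ := pushInputs_heckeBetaBar M q
  exact ⟨(pic0PushTotal_mk_eq_zero_iff _ hα hfinα hNα D).2 hA,
    (pic0PushTotal_mk_eq_zero_iff _ hβ hfinβ hNβ D).2 hB⟩

/-- `degA x = 0` and `degB x = 0` give `IsQNew x`. -/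
theorem isQNew_of_deg (M q : ℕ) [NeZero M] [NeZero q] (x : JZero (M * q))
    (ha : G.degA M q x = 0) (hb : G.degB M q x = 0) : H891.IsQNew M q x := by
  obtain ⟨hα, hfinα, hNα⟩ := pushInputs_heckeAlphaBar M q
  obtain ⟨hβ, hfinβ, hNβ⟩ := pushInputs_heckeBetaBar M q
  obtain ⟨D, rfl⟩ := QuotientAddGroup.mk_surjective x
  exact ⟨hα, hβ, D, rfl, (pic0PushTotal_mk_eq_zero_iff _ hα hfinα hNα D).1 ha,
    (pic0PushTotal_mk_eq_zero_iff _ hβ hfinβ hNβ D).1 hb⟩

/-- **Bridge (G') → QNF.**  The output of the assembly of piece (G') is the input of the top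
glue. -/
theorem qNewFrob_of_newPartFrobExplicit (h : G.NewPartFrobExplicit) : H891.QNewFrobStatement := by
  intro M' q m _ _ hq hqM hm hqm P hP s hs x hx hnew
  obtain ⟨ha, hb⟩ := deg_eq_zero_of_isQNew M' q x hnew
  exact cubic_of_frobPolyAdd s (q ^ 2) x (h M' q m hq hqM hm hqm P hP s hs x hx ha hb)

/-- **Bridge QNF → (G').** -/
theorem newPartFrobExplicit_of_qNewFrob (h : H891.QNewFrobStatement) : G.NewPartFrobExplicit := by
  intro M q m _ _ hq hqM hm hqm A hA s hs x hx ha hb
  exact frobPolyAdd_of_cubic s (q ^ 2) x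
    (h M q m hq hqM hm hqm A hA s hs x hx (isQNew_of_deg M q x ha hb))

end Fermat.Agent.S35.H909
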