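import Fermat.Prelude.Def_AlgebraicCurve_BaseChangeGalois
import Fermat.Agent.A2.H129.Kummer

/-!
# S35 / cell FROB, leaf QNF, part Q0 (abstract): a cubic Kummer identity gives a cubic relation on
`Pic0` (helper909)

Prelude language, any `K`, `F`.  `x = [D]`, `m D = div f`, `g` a semilinear automorphism with
ring automorphism `τ`.  If

  `τ³ f · (τ f) ^ (1 + 2Q) = h ^ m · (τ² f) ^ (2 + Q) · f ^ Q`

then `g³ x + (1 + 2Q) g x = (2 + Q) g² x + Q x`, i.e. `(g - Q)(g - 1)² x = 0`.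
-/

set_option autoImplicit false

namespace Fermat.Agent.S35.H909

open AlgebraicCurve

variable {K F : Type*} [Field K] [Field F] [Algebra K F]

/-- **Q0, abstract form.** -/
theorem cubic_of_kummer (g : SemilinearAut K F) (m : ℕ) (hm : m ≠ 0) (Q : ℕ)
    (D : Divisor.degZero (K := K) (F := F)) {f : F} (hf : f ≠ 0)
    (hfD : ∀ v : Place K F, v.ord f = (m : ℤ) * (D : Divisor K F) v)
    {h : F} (hh : h ≠ 0)
    (hid : SemilinearAut.toRingAut g (SemilinearAut.toRingAut g (SemilinearAut.toRingAut g f)) *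
        (SemilinearAut.toRingAut g f) ^ (1 + 2 * Q) =
      h ^ m * (SemilinearAut.toRingAut g (SemilinearAut.toRingAut g f)) ^ (2 + Q) * f ^ Q) :
    g • g • g • Pic0.mk D + (1 + 2 * Q) • (g • Pic0.mk D) =
      (2 + Q) • (g • g • Pic0.mk D) + Q • Pic0.mk D := by
  set τ := SemilinearAut.toRingAut g with hτ
  set G := SemilinearAut.degZeroSMulHom (K := K) (F := F) g with hG
  have hτ1 : τ f ≠ 0 := by simpa using hf
  have hτ2 : τ (τ f) ≠ 0 := by simpa using hf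
  have hτ3 : τ (τ (τ f)) ≠ 0 := by simpa using hf
  -- the divisor `E = (g - Q)(g - 1)² D`
  set E : Divisor.degZero (K := K) (F := F) :=
    G (G (G D)) + (1 + 2 * Q) • G D - ((2 + Q) • G (G D) + Q • D) with hE
  have hgoal : g • g • g • Pic0.mk D + (1 + 2 * Q) • (g • Pic0.mk D)
      - ((2 + Q) • (g • g • Pic0.mk D) + Q • Pic0.mk D) = Pic0.mk E := by
    rw [SemilinearAut.pic0_smul_mk, SemilinearAut.pic0_smul_mk, SemilinearAut.pic0_smul_mk]
    rfl
  rw [← sub_eq_zero, hgoal]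
  refine (QuotientAddGroup.eq_zero_iff E).2 ?_
  rw [AddSubgroup.mem_addSubgroupOf]
  refine ⟨h, hh, fun w => ?_⟩
  have hEw : (E : Divisor K F) w =
      (D : Divisor K F) (g⁻¹ • (g⁻¹ • (g⁻¹ • w))) + ((1 + 2 * Q : ℕ) : ℤ) *
          (D : Divisor K F) (g⁻¹ • w)
        - (((2 + Q : ℕ) : ℤ) * (D : Divisor K F) (g⁻¹ • (g⁻¹ • w)) +
            (Q : ℤ) * (D : Divisor K F) w) := by
    simp only [hE, hG, AddSubgroupClass.coe_sub, AddSubgroup.coe_add, AddSubgroup.coe_nsmul,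
      SemilinearAut.coe_degZeroSMulHom, Finsupp.sub_apply, Finsupp.add_apply,
      Finsupp.smul_apply, SemilinearAut.divisor_smul_apply, nsmul_eq_mul]
  have e1 : ∀ (k : F) (v : Place K F), v.ord (τ k) = (g⁻¹ • v).ord k := fun k v => by
    rw [hτ]; exact Fermat.Agent.A2.H129.ord_smul_eq g v k
  have hL : w.ord (τ (τ (τ f)) * (τ f) ^ (1 + 2 * Q)) =
      (g⁻¹ • (g⁻¹ • (g⁻¹ • w))).ord f + ((1 + 2 * Q : ℕ) : ℤ) * (g⁻¹ • w).ord f := by
    rw [w.ord_mul hτ3 (pow_ne_zero _ hτ1), Fermat.Agent.A2.H129.ord_pow, e1, e1, e1, e1]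
  have hR : w.ord (h ^ m * (τ (τ f)) ^ (2 + Q) * f ^ Q) =
      (m : ℤ) * w.ord h + ((2 + Q : ℕ) : ℤ) * (g⁻¹ • (g⁻¹ • w)).ord f + (Q : ℤ) * w.ord f := by
    rw [w.ord_mul (mul_ne_zero (pow_ne_zero _ hh) (pow_ne_zero _ hτ2)) (pow_ne_zero _ hf),
      w.ord_mul (pow_ne_zero _ hh) (pow_ne_zero _ hτ2), Fermat.Agent.A2.H129.ord_pow,
      Fermat.Agent.A2.H129.ord_pow, Fermat.Agent.A2.H129.ord_pow, e1, e1]
  have hmE : (m : ℤ) * (E : Divisor K F) w = (m : ℤ) * w.ord h := by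
    have h3 := hL
    rw [hid, hR, hfD, hfD, hfD, hfD] at h3
    rw [hEw]
    linear_combination (-1 : ℤ) * h3
  have hm' : (m : ℤ) ≠ 0 := by exact_mod_cast hm
  exact mul_left_cancel₀ hm' hmE

end Fermat.Agent.S35.H909
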