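import Fermat.Agent.S35.H891.Spec
import Fermat.Agent.S35.H909.CubicAbs
import Fermat.Agent.S29.H812.HeckeInputs
import Fermat.Agent.S29.H871.Inj

/-!
# S35 / cell FROB, leaf QNF, part Q0: the Kummer form of QNF implies QNF on `J₀(M' q)`
(helper909)

`qNewFrob_of_kummer : H891.KummerQNewFrobStatement → H891.QNewFrobStatement`.

`x = [D]` `q`-new (`α_* D = div a`, `β_* D = div b`), `m x = 0`, `m D = div f`.  By the norm
formula (`S29.H812`), `div (N_α f) = α_* (div f) = m · div a`, hence `N_α f = c · a ^ m` with a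
constant `c`, an `m`-th power in `ℚ̄`; same for `β`.  The Kummer statement gives the cubic identity
for `φ = s²`, and `cubic_of_kummer` translates it to `Pic0`.
-/

set_option autoImplicit false

noncomputable section

namespace Fermat.Agent.S35.H909

open AlgebraicCurve ModularCurve Fermat.Agent.A2 Fermat.Agent.S35.H891

/-- A function on a modular curve whose divisor is `m` times a principal divisor `div a` is an
`m`-th power (the constant is absorbed: `ℚ̄` is algebraically closed). -/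
theorem exists_pow_eq_of_ord (M : ℕ) [NeZero M] (m : ℕ) (hm : 0 < m)
    {y a : modularFunctionFieldBar M} (hy : y ≠ 0) (ha : a ≠ 0)
    (h : ∀ v : Place Qb (modularFunctionFieldBar M), v.ord y = (m : ℤ) * v.ord a) :
    ∃ b : modularFunctionFieldBar M, b ≠ 0 ∧ y = b ^ m := by
  obtain ⟨t, ht, hfin⟩ := Fermat.Agent.S29.H812.exists_coord_modular M
  haveI := hfin
  have hz0 : y * (a ^ m)⁻¹ ≠ 0 := mul_ne_zero hy (inv_ne_zero (pow_ne_zero _ ha))
  have hz : ∀ w : Place Qb (modularFunctionFieldBar M), w.ord (y * (a ^ m)⁻¹) = 0 := by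
    intro w
    rw [Fermat.Agent.A2.H129.ord_div w hy (pow_ne_zero _ ha), Fermat.Agent.A2.H129.ord_pow, h w,
      sub_self]
  obtain ⟨c, hc, hcy⟩ :=
    Fermat.Agent.S29.H871.exists_const_of_forall_ord_eq_zero (K' := Qb) ht hz0 hz
  obtain ⟨c₁, hc₁⟩ := IsAlgClosed.exists_pow_nat_eq c hm
  have hc₁0 : c₁ ≠ 0 := by
    rintro rfl
    rw [zero_pow hm.ne'] at hc₁
    exact hc hc₁.symm
  refine ⟨algebraMap Qb (modularFunctionFieldBar M) c₁ * a,
    mul_ne_zero (by simpa using hc₁0) ha, ?_⟩
  rw [mul_pow, ← map_pow, hc₁, ← hcy, mul_assoc, inv_mul_cancel₀ (pow_ne_zero _ ha), mul_one]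

/-- **Q0.**  The Kummer form of QNF implies QNF on `J₀(M' q)`. -/
theorem qNewFrob_of_kummer (hK : KummerQNewFrobStatement) : QNewFrobStatement := by
  intro M' q m _ _ hq hqM hm hqm P hP s hs x hx hnew
  haveI : NeZero (M' * q) := ⟨Nat.mul_ne_zero (NeZero.ne M') (NeZero.ne q)⟩
  obtain ⟨hα, hβ, D, rfl, ⟨a, ha, haD⟩, ⟨b, hb, hbD⟩⟩ := hnew
  -- the Kummer generator
  have hprin : ((m • D : Divisor.degZero (K := Qb) (F := modularFunctionFieldBar (M' * q))) :
      Divisor Qb (modularFunctionFieldBar (M' * q))) ∈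
      Divisor.principal (K := Qb) (F := modularFunctionFieldBar (M' * q)) := by
    have h0 : Pic0.mk (m • D) = 0 := hx
    have := (QuotientAddGroup.eq_zero_iff (m • D)).1 h0
    simpa [AddSubgroup.mem_addSubgroupOf] using this
  obtain ⟨f, hf, hfD⟩ := hprin
  have hfD' : ∀ v : Place Qb (modularFunctionFieldBar (M' * q)),
      v.ord f = (m : ℤ) * (D : Divisor Qb (modularFunctionFieldBar (M' * q))) v := by
    intro v
    rw [← hfD v]
    simp [Finsupp.smul_apply]
  have hfD'' : ∀ w : Place Qb (modularFunctionFieldBar (M' * q)),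
      ((m : ℤ) • (D : Divisor Qb (modularFunctionFieldBar (M' * q)))) w = w.ord f := by
    intro w
    rw [Finsupp.smul_apply, smul_eq_mul, hfD' w]
  -- the norm formula for `α` and `β`
  haveI hPD : HasPrincipalDivisors Qb (modularFunctionFieldBar (M' * q)) :=
    Fermat.Agent.Lib.RR.H864.hasPrincipalDivisors_modularFunctionFieldBar (M' * q)
  have hF := Fermat.Agent.S29.H812.exists_coord_modular M'
  have hfinα := Fermat.Agent.S29.H812.finiteAlong_heckeAlphaBar M' q
  have hfinβ := Fermat.Agent.S29.H812.finiteAlong_heckeBetaBar M' q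
  have hNα := Fermat.Agent.S29.H812.normFormulaAlong hF (heckeAlphaBar Qb M' q) hfinα
  have hNβ := Fermat.Agent.S29.H812.normFormulaAlong hF (heckeBetaBar Qb M' q) hfinβ
  have hordα : ∀ v : Place Qb (modularFunctionFieldBar M'),
      v.ord (Fermat.Agent.S29.H395.normAlong (heckeAlphaBar Qb M' q) f) = (m : ℤ) * v.ord a := by
    intro v
    rw [← Fermat.Agent.S29.H395.pushforwardAlong_apply_eq_ord (heckeAlphaBar Qb M' q) hα hfinα hNα
      hf hfD'' v, map_zsmul, Finsupp.smul_apply, smul_eq_mul, haD v]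
  have hordβ : ∀ v : Place Qb (modularFunctionFieldBar M'),
      v.ord (Fermat.Agent.S29.H395.normAlong (heckeBetaBar Qb M' q) f) = (m : ℤ) * v.ord b := by
    intro v
    rw [← Fermat.Agent.S29.H395.pushforwardAlong_apply_eq_ord (heckeBetaBar Qb M' q) hβ hfinβ hNβ
      hf hfD'' v, map_zsmul, Finsupp.smul_apply, smul_eq_mul, hbD v]
  have hα' := exists_pow_eq_of_ord M' m hm
    (Fermat.Agent.S29.H395.normAlong_ne_zero _ hfinα hf) ha hordα
  have hβ' := exists_pow_eq_of_ord M' m hm
    (Fermat.Agent.S29.H395.normAlong_ne_zero _ hfinβ hf) hb hordβ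
  obtain ⟨h, hh, hid⟩ := hK M' q m hq hqM hm hqm P hP s hs f hf (fun v => ⟨_, hfD' v⟩) hα' hβ'
  -- translate to `Pic0`
  set g₁ := arithmeticGalois (L := Qb) (modularFunctionFieldFull (M' * q)) s with hg₁
  have hact : ∀ k : modularFunctionFieldBar (M' * q),
      SemilinearAut.toRingAut (g₁ * g₁) k = actSq (M' * q) s k := by
    intro k
    rw [SemilinearAut.toRingAut_mul, hg₁, toRingAut_arithmeticGalois]
    rfl
  have hid' : SemilinearAut.toRingAut (g₁ * g₁)
        (SemilinearAut.toRingAut (g₁ * g₁) (SemilinearAut.toRingAut (g₁ * g₁) f)) *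
        (SemilinearAut.toRingAut (g₁ * g₁) f) ^ (1 + 2 * q ^ 2) =
      h ^ m * (SemilinearAut.toRingAut (g₁ * g₁) (SemilinearAut.toRingAut (g₁ * g₁) f)) ^ (2 + q ^ 2)
        * f ^ q ^ 2 := by
    rw [hact, hact, hact]
    exact hid
  have hcub := cubic_of_kummer (g₁ * g₁) m hm.ne' (q ^ 2) D hf hfD' hh hid'
  have hsm : ∀ y : JZero (M' * q), (g₁ * g₁) • y = s • s • y := by
    intro y
    rw [mul_smul]
    rfl
  rw [hsm, hsm, hsm] at hcub
  exact hcub

end Fermat.Agent.S35.H909
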